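/-
S18 / wave 4 (helper20): node `clear_of_hyps` (D9, CLEARING) of the C1 sub-skeleton
(`H49/C1Skel.lean`), statement verbatim, with the five inputs (FIN), (TUBE), (IC), (EV), (MO) as
explicit hypotheses.

Proof.  `g0 = ∏_P τ_P ^ (ord_P u / m)` over the finitely many places of the disc where
`ord_P u ≠ 0`;  `w = u / g0 ^ m` is a unit of `S_b`;  `(g0⁻¹)^m ≡ w` and `g0^m ≡ w⁻¹` modulo `m_O`,
so by (IC) there are `s, s' ∈ S_b` with `s ≡ g0⁻¹`, `s' ≡ g0`;  `s s' - 1 ∈ m_O ∩ S_b = m_A S_b`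
by (MO), hence `s s'` has no zero on the disc by (EV);  `g = g0 s`.
-/
import Mathlib
import Fermat.Agent.S18.H74.CoreDefs
import Fermat.Agent.S24.Ord

set_option autoImplicit false

open AlgebraicCurve IntermediateField

noncomputable section

namespace Fermat.Agent.S18.H20

open Fermat.Agent.S18.H74

variable {K : Type*} [Field K] {A : ValuationSubring K} {F : Type*} [Field F] [Algebra K F]
  {O : ValuationSubring F} {x : F}

/-! ### Valuation-subring helpers -/

/-- `a * e` is a nonunit when `a ∈ O` and `e` is a nonunit. -/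
theorem clr_mul_mem_nonunits (O : ValuationSubring F) {a e : F} (ha : a ∈ O)
    (he : e ∈ O.nonunits) : a * e ∈ O.nonunits := by
  rw [ValuationSubring.mem_nonunits_iff] at he ⊢
  rw [map_mul]
  calc O.valuation a * O.valuation e ≤ 1 * O.valuation e :=
        mul_le_mul' ((O.valuation_le_one_iff a).mpr ha) le_rfl
    _ = O.valuation e := one_mul _
    _ < 1 := he

theorem clr_add_mem_nonunits (O : ValuationSubring F) {e e' : F} (he : e ∈ O.nonunits)
    (he' : e' ∈ O.nonunits) : e + e' ∈ O.nonunits := by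
  rw [ValuationSubring.mem_nonunits_iff] at he he' ⊢
  exact (O.valuation.map_add e e').trans_lt (max_lt he he')

theorem clr_neg_mem_nonunits (O : ValuationSubring F) {e : F} (he : e ∈ O.nonunits) :
    -e ∈ O.nonunits := by
  rw [ValuationSubring.mem_nonunits_iff] at he ⊢
  rwa [Valuation.map_neg]

/-- An element of valuation `1` is a unit of `O`. -/
theorem clr_mem_of_val_eq_one (O : ValuationSubring F) {f : F} (h : O.valuation f = 1) :
    f ∈ O ∧ f⁻¹ ∈ O := by
  rw [← O.valuation_le_one_iff, ← O.valuation_le_one_iff, map_inv₀, h]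
  simp

/-- A nonzero unit of `O` has valuation `1`. -/
theorem clr_val_eq_one (O : ValuationSubring F) {f : F} (hf : f ≠ 0) (h1 : f ∈ O)
    (h2 : f⁻¹ ∈ O) : O.valuation f = 1 := by
  rw [← O.valuation_le_one_iff] at h1 h2
  rw [map_inv₀] at h2
  have hne : O.valuation f ≠ 0 := (map_ne_zero _).mpr hf
  exact le_antisymm h1 ((inv_le_one₀ (zero_lt_iff.mpr hne)).mp h2)

/-- A one-unit has valuation `1`. -/
theorem clr_val_oneUnit (O : ValuationSubring F) {u : F} (hu : u - 1 ∈ O.nonunits) :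
    O.valuation u = 1 := by
  rw [ValuationSubring.mem_nonunits_iff] at hu
  have h := Valuation.map_add_eq_of_lt_left O.valuation (x := (1 : F)) (y := u - 1)
    (by rw [map_one]; exact hu)
  rw [map_one] at h
  rw [← h]
  congr 1
  ring

/-- Membership of `S_b` in valuation-subring form. -/
theorem clr_mem_discRing_iff (A : ValuationSubring K) (O : ValuationSubring F) (x : F) (b : K)
    (f : F) : f ∈ discRing A O x b ↔
      f ∈ O ∧ ∀ P : Place K F, InDisc A x b P → f ∈ P.toValuationSubring := by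
  constructor
  · rintro ⟨h1, h2⟩
    refine ⟨h1, fun P hP => ?_⟩
    by_cases hf : f = 0
    · rw [hf]; exact zero_mem _
    · exact (Fermat.Agent.S24.mem_iff_ord_nonneg P hf).mpr (h2 P hP)
  · rintro ⟨h1, h2⟩
    refine ⟨h1, fun P hP => ?_⟩
    by_cases hf : f = 0
    · rw [hf, Place.ord_zero]
    · exact (Fermat.Agent.S24.mem_iff_ord_nonneg P hf).mp (h2 P hP)

/-- A nonzero nonunit of `A` has its inverse outside `A`. -/
theorem clr_inv_notMem (A : ValuationSubring K) {a : K} (ha : a ∈ A.nonunits) (ha0 : a ≠ 0) :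
    a⁻¹ ∉ A := by
  intro h
  rw [ValuationSubring.mem_nonunits_iff] at ha
  rw [← A.valuation_le_one_iff, map_inv₀] at h
  have hne : A.valuation a ≠ 0 := (map_ne_zero _).mpr ha0
  have h1 : 1 ≤ A.valuation a := (inv_le_one₀ (zero_lt_iff.mpr hne)).mp h
  exact absurd ha (not_lt.mpr h1)

/-! ### The clearing lemma -/

/-- **D9 clearing**, explicit-hypothesis form (node `clear_of_hyps` of `H49/C1Skel.lean`,
statement verbatim). -/
theorem clear_of_hyps (b : K) (m : ℕ) (hm : m ≠ 0) (u : F) (hu : u - 1 ∈ O.nonunits)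
    (hord : ∀ P : Place K F, InDisc A x b P → (m : ℤ) ∣ P.ord u)
    (FIN : {P : Place K F | InDisc A x b P ∧ P.ord u ≠ 0}.Finite)
    (TUBE : ∀ P : Place K F, InDisc A x b P → ∃ τ ∈ discRing A O x b, τ⁻¹ ∈ O ∧ P.ord τ = 1 ∧
      ∀ P' : Place K F, InDisc A x b P' → P' ≠ P → P'.ord τ = 0)
    (IC : ∀ y ∈ O, (∃ w ∈ discRing A O x b, y ^ m - w ∈ O.nonunits) →
      ∃ s ∈ discRing A O x b, y - s ∈ O.nonunits)
    (EV : ∀ s ∈ discRing A O x b, ∀ P : Place K F, InDisc A x b P → ∀ c : K,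
      0 < P.ord (s - algebraMap K F c) → c ∈ A)
    (MO : ∀ e ∈ discRing A O x b, e ∈ O.nonunits →
      ∃ a ∈ A.nonunits, ∃ s ∈ discRing A O x b, e = algebraMap K F a * s) :
    ∃ g : F, g - 1 ∈ O.nonunits ∧
      ∀ P : Place K F, InDisc A x b P → (m : ℤ) * P.ord g = P.ord u := by
  classical
  have hm' : (m : ℤ) ≠ 0 := by exact_mod_cast hm
  -- `u` is a unit of `O`
  have hvu : O.valuation u = 1 := clr_val_oneUnit O hu
  have hu0 : u ≠ 0 := fun h => by rw [h, map_zero] at hvu; exact zero_ne_one hvu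
  -- the tubes
  choose! τ hτS hτinv hτP hτP' using TUBE
  have hτ0 : ∀ P, InDisc A x b P → τ P ≠ 0 := fun P hP h0 => by
    have := hτP P hP
    rw [h0, Place.ord_zero] at this
    exact zero_ne_one this
  have hvτ : ∀ P, InDisc A x b P → O.valuation (τ P) = 1 := fun P hP =>
    clr_val_eq_one O (hτ0 P hP) (hτS P hP).1 (hτinv P hP)
  set T : Finset (Place K F) := FIN.toFinset with hT
  have hTmem : ∀ P, P ∈ T ↔ InDisc A x b P ∧ P.ord u ≠ 0 := fun P => by
    rw [hT, Set.Finite.mem_toFinset]; rfl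
  set g0 : F := ∏ Q ∈ T, τ Q ^ (Q.ord u / (m : ℤ)) with hg0
  have hfac0 : ∀ Q ∈ T, τ Q ^ (Q.ord u / (m : ℤ)) ≠ 0 := fun Q hQ =>
    zpow_ne_zero _ (hτ0 Q ((hTmem Q).mp hQ).1)
  have hg00 : g0 ≠ 0 := Finset.prod_ne_zero_iff.mpr hfac0
  have hvg0 : O.valuation g0 = 1 := by
    rw [hg0, map_prod]
    refine Finset.prod_eq_one fun Q hQ => ?_
    rw [map_zpow₀, hvτ Q ((hTmem Q).mp hQ).1, one_zpow]
  -- orders of `g0` on the disc
  have hordg0 : ∀ P : Place K F, InDisc A x b P → (m : ℤ) * P.ord g0 = P.ord u := by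
    intro P hP
    have h1 : P.ord g0 = ∑ Q ∈ T, (Q.ord u / (m : ℤ)) * P.ord (τ Q) := by
      rw [hg0, Fermat.Agent.S24.ord_prod P T _ hfac0]
      exact Finset.sum_congr rfl fun Q _ => P.ord_zpow _ _
    by_cases hPT : P ∈ T
    · have h2 : ∑ Q ∈ T, (Q.ord u / (m : ℤ)) * P.ord (τ Q) = P.ord u / (m : ℤ) := by
        rw [Finset.sum_eq_single_of_mem P hPT]
        · rw [hτP P hP, mul_one]
        · intro Q hQ hQP
          rw [hτP' Q ((hTmem Q).mp hQ).1 P hP (Ne.symm hQP), mul_zero]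
      rw [h1, h2]
      exact Int.mul_ediv_cancel' (hord P hP)
    · have h2 : ∑ Q ∈ T, (Q.ord u / (m : ℤ)) * P.ord (τ Q) = 0 := by
        refine Finset.sum_eq_zero fun Q hQ => ?_
        have hQP : P ≠ Q := fun h => hPT (h ▸ hQ)
        rw [hτP' Q ((hTmem Q).mp hQ).1 P hP hQP, mul_zero]
      have h3 : P.ord u = 0 := by
        by_contra h
        exact hPT ((hTmem P).mpr ⟨hP, h⟩)
      rw [h1, h2, h3, mul_zero]
  -- the unit `w = u / g0 ^ m` of `S_b`
  set w : F := u * (g0 ^ m)⁻¹ with hw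
  have hgm0 : g0 ^ m ≠ 0 := pow_ne_zero _ hg00
  have hw0 : w ≠ 0 := mul_ne_zero hu0 (inv_ne_zero hgm0)
  have hvw : O.valuation w = 1 := by
    rw [hw, map_mul, map_inv₀, map_pow, hvu, hvg0, one_pow, inv_one, mul_one]
  have hordw : ∀ P : Place K F, InDisc A x b P → P.ord w = 0 := by
    intro P hP
    rw [hw, P.ord_mul hu0 (inv_ne_zero hgm0), P.ord_inv, Fermat.Agent.S24.ord_pow,
      hordg0 P hP]
    ring
  have hwS : w ∈ discRing A O x b :=
    ⟨(clr_mem_of_val_eq_one O hvw).1, fun P hP => (hordw P hP).ge⟩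
  have hwS' : w⁻¹ ∈ discRing A O x b :=
    ⟨(clr_mem_of_val_eq_one O hvw).2, fun P hP => by rw [P.ord_inv, hordw P hP, neg_zero]⟩
  have hg0O : g0 ∈ O := (clr_mem_of_val_eq_one O hvg0).1
  have hg0O' : g0⁻¹ ∈ O := (clr_mem_of_val_eq_one O hvg0).2
  have huO' : u⁻¹ ∈ O := (clr_mem_of_val_eq_one O hvu).2
  -- (IC) twice
  obtain ⟨s, hsS, hs⟩ := IC g0⁻¹ hg0O' ⟨w, hwS, by
    have h1 : g0⁻¹ ^ m - w = (g0 ^ m)⁻¹ * (-(u - 1)) := by
      rw [hw, inv_pow]; ring
    rw [h1]
    exact clr_mul_mem_nonunits O (by rw [← inv_pow]; exact pow_mem hg0O' m)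
      (clr_neg_mem_nonunits O hu)⟩
  obtain ⟨s', hsS', hs'⟩ := IC g0 hg0O ⟨w⁻¹, hwS', by
    have h1 : g0 ^ m - w⁻¹ = (g0 ^ m * u⁻¹) * (u - 1) := by
      rw [hw, mul_inv, inv_inv]
      field_simp
    rw [h1]
    exact clr_mul_mem_nonunits O (O.mul_mem _ _ (pow_mem hg0O m) huO') hu⟩
  -- `s s' - 1 ∈ m_O ∩ S_b`
  have hss : s * s' - 1 ∈ O.nonunits := by
    have h1 : s * s' - 1 = s' * (-(g0⁻¹ - s)) + g0⁻¹ * (-(g0 - s')) := by
      field_simp
      ring
    rw [h1]
    exact clr_add_mem_nonunits O (clr_mul_mem_nonunits O hsS'.1 (clr_neg_mem_nonunits O hs))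
      (clr_mul_mem_nonunits O hg0O' (clr_neg_mem_nonunits O hs'))
  have hssS : s * s' - 1 ∈ discRing A O x b := by
    rw [clr_mem_discRing_iff] at hsS hsS' ⊢
    exact ⟨sub_mem (O.mul_mem _ _ hsS.1 hsS'.1) O.one_mem, fun P hP =>
      sub_mem (mul_mem (hsS.2 P hP) (hsS'.2 P hP)) (one_mem _)⟩
  obtain ⟨a, ha, t, htS, hat⟩ := MO _ hssS hss
  have hss0 : s * s' ≠ 0 := by
    intro h0
    rw [h0, zero_sub] at hss
    have := clr_neg_mem_nonunits O hss
    rw [neg_neg, ValuationSubring.mem_nonunits_iff, map_one] at this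
    exact lt_irrefl _ this
  have hs0 : s ≠ 0 := left_ne_zero_of_mul hss0
  have hs0' : s' ≠ 0 := right_ne_zero_of_mul hss0
  have hsseq : s * s' = 1 + algebraMap K F a * t := by rw [← hat]; ring
  -- `s` has no zero on the disc
  have hords : ∀ P : Place K F, InDisc A x b P → P.ord s = 0 := by
    intro P hP
    have h1 : 0 ≤ P.ord s := hsS.2 P hP
    have h2 : 0 ≤ P.ord s' := hsS'.2 P hP
    by_contra hne
    have hpos : 0 < P.ord (s * s') := by
      rw [P.ord_mul hs0 hs0']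
      omega
    have ha0 : a ≠ 0 := by
      intro h0
      rw [hsseq, h0, map_zero, zero_mul, add_zero, Place.ord_one] at hpos
      exact lt_irrefl _ hpos
    have h3 : t - algebraMap K F (-a⁻¹) = algebraMap K F a⁻¹ * (s * s') := by
      rw [hsseq, map_neg, map_inv₀]
      have : algebraMap K F a ≠ 0 := (map_ne_zero _).mpr ha0
      field_simp
      ring
    have h4 : 0 < P.ord (t - algebraMap K F (-a⁻¹)) := by
      rw [h3, P.ord_mul ((map_ne_zero _).mpr (inv_ne_zero ha0)) hss0,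
        Fermat.Agent.S24.ord_algebraMap P (inv_ne_zero ha0), zero_add]
      exact hpos
    have h5 : -a⁻¹ ∈ A := EV t htS P hP _ h4
    exact clr_inv_notMem A ha ha0 (by simpa using A.neg_mem _ h5)
  -- conclusion
  refine ⟨g0 * s, ?_, fun P hP => ?_⟩
  · have h1 : g0 * s - 1 = g0 * (-(g0⁻¹ - s)) := by
      field_simp
      ring
    rw [h1]
    exact clr_mul_mem_nonunits O hg0O (clr_neg_mem_nonunits O hs)
  · rw [P.ord_mul hg00 hs0, hords P hP, add_zero]
    exact hordg0 P hP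

end Fermat.Agent.S18.H20
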