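/-
S18 / wave 4, leaf C1-D3 (helper20): the MINIMAL TUPLE.

For a residue disc `b + m_A` of the `x`-line there is an orthonormal `K(x)`-basis `θ` of `F`
inside `S_b = discRing A O x b` which is a local integral basis at EVERY point `c` of the disc;
consequently `S_b = ⊕ R_b θ_i`.

Everything is stated in the `Place` language of the Prelude; the inputs from the fibre package
(D1) are explicit hypotheses: finiteness of zeros/poles, non-empty fibres, and "the trace of a
function without poles over `c` has no poles over `c`".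
-/
import Fermat.Agent.S18.H74.CoreDefs
import Fermat.Agent.S24.Ord
import Fermat.Agent.S24.Residue

set_option autoImplicit false

open AlgebraicCurve IntermediateField

noncomputable section

namespace Fermat.Agent.S18.H20

open Fermat.Agent.S18.H74 (InDisc discRing)

variable {K : Type*} [Field K] {F : Type*} [Field F] [Algebra K F]

/-! ### Place helpers -/

theorem ord_nonneg_iff (P : Place K F) (f : F) : 0 ≤ P.ord f ↔ f ∈ P.toValuationSubring := by
  by_cases hf : f = 0
  · subst hf
    simp [Place.ord_zero]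
  · exact (Fermat.Agent.S24.mem_iff_ord_nonneg P hf).symm

theorem mem_of_ord_pos (P : Place K F) {f : F} (h : 0 < P.ord f) : f ∈ P.toValuationSubring :=
  (ord_nonneg_iff P f).mp h.le

theorem algebraMap_mem_place (P : Place K F) (a : K) : algebraMap K F a ∈ P.toValuationSubring :=
  P.algebraMap_mem' a

/-- If `P` lies over `c'` then `x` is integral at `P`. -/
theorem x_mem_of_over (P : Place K F) {x : F} {c : K} (h : 0 < P.ord (x - algebraMap K F c)) :
    x ∈ P.toValuationSubring := by
  have h1 := mem_of_ord_pos P h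
  have h2 := algebraMap_mem_place P c
  have := P.toValuationSubring.add_mem _ _ h1 h2
  simpa using this

/-- If `P` lies over `c'` and `c ≠ c'` then `x - c` is a unit at `P`. -/
theorem ord_sub_eq_zero_of_over (P : Place K F) {x : F} {c c' : K}
    (h : 0 < P.ord (x - algebraMap K F c')) (hne : c ≠ c') :
    x - algebraMap K F c ≠ 0 ∧ P.ord (x - algebraMap K F c) = 0 := by
  have hcc : algebraMap K F (c' - c) ≠ 0 := by
    rw [Ne, map_eq_zero, sub_eq_zero]
    exact fun h => hne h.symm
  have h0 : P.ord (algebraMap K F (c' - c)) = 0 :=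
    Fermat.Agent.S24.ord_algebraMap P (sub_ne_zero.mpr (fun h => hne h.symm))
  have key := Fermat.Agent.S24.ord_add_eq_of_lt P hcc
    (g := x - algebraMap K F c') (Or.inr (by rw [h0]; exact h))
  have he : algebraMap K F (c' - c) + (x - algebraMap K F c') = x - algebraMap K F c := by
    rw [map_sub]; ring
  rw [he] at key
  exact ⟨key.1, key.2.trans h0⟩

/-- A polynomial in `x` is integral at a place where `x` is. -/
theorem aeval_mem_place (P : Place K F) {x : F} (hx : x ∈ P.toValuationSubring)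
    (p : Polynomial K) : Polynomial.aeval x p ∈ P.toValuationSubring := by
  induction p using Polynomial.induction_on' with
  | add p q hp hq =>
    rw [map_add]
    exact P.toValuationSubring.add_mem _ _ hp hq
  | monomial n a =>
    rw [Polynomial.aeval_monomial]
    exact P.toValuationSubring.mul_mem _ _ (algebraMap_mem_place P a)
      (P.toValuationSubring.pow_mem hx n)

/-- If `P` lies over `c` and `q(c) ≠ 0` then `q(x)` is a unit at `P`. -/
theorem aeval_inv_mem_place (P : Place K F) {x : F} {c : K}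
    (h : 0 < P.ord (x - algebraMap K F c)) (q : Polynomial K) (hq : q.eval c ≠ 0) :
    Polynomial.aeval x q ≠ 0 ∧ (Polynomial.aeval x q)⁻¹ ∈ P.toValuationSubring := by
  have hx := x_mem_of_over P h
  have hdecomp : q = Polynomial.C (q.eval c) + (Polynomial.X - Polynomial.C c) *
      (q /ₘ (Polynomial.X - Polynomial.C c)) := by
    conv_lhs => rw [← Polynomial.modByMonic_add_div q (Polynomial.X - Polynomial.C c),
      Polynomial.modByMonic_X_sub_C_eq_C_eval]
  set q₂ := q /ₘ (Polynomial.X - Polynomial.C c) with hq₂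
  have hval : Polynomial.aeval x q = algebraMap K F (q.eval c) +
      (x - algebraMap K F c) * Polynomial.aeval x q₂ := by
    conv_lhs => rw [hdecomp]
    simp [Polynomial.aeval_C]
  have hc0 : algebraMap K F (q.eval c) ≠ 0 := by simpa using hq
  have h0 : P.ord (algebraMap K F (q.eval c)) = 0 := Fermat.Agent.S24.ord_algebraMap P hq
  have hkey : Polynomial.aeval x q ≠ 0 ∧ P.ord (Polynomial.aeval x q) = 0 := by
    rw [hval]
    by_cases hz : (x - algebraMap K F c) * Polynomial.aeval x q₂ = 0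
    · rw [hz, add_zero]
      exact ⟨hc0, h0⟩
    · have h2 : Polynomial.aeval x q₂ ≠ 0 := right_ne_zero_of_mul hz
      have h1 : x - algebraMap K F c ≠ 0 := left_ne_zero_of_mul hz
      have hord : 0 < P.ord ((x - algebraMap K F c) * Polynomial.aeval x q₂) := by
        rw [P.ord_mul h1 h2]
        have := (ord_nonneg_iff P _).mpr (aeval_mem_place P hx q₂)
        omega
      have key := Fermat.Agent.S24.ord_add_eq_of_lt P hc0
        (g := (x - algebraMap K F c) * Polynomial.aeval x q₂) (Or.inr (by rw [h0]; exact hord))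
      exact ⟨key.1, key.2.trans h0⟩
  refine ⟨hkey.1, ?_⟩
  rw [← ord_nonneg_iff, P.ord_inv, hkey.2]
  simp

/-! ### Partial fractions: the swap vector -/

section Swap

variable {ι : Type*} [Fintype ι]

/-- Finitely many elements of `K(x)` have a common denominator. -/
theorem exists_common_denominator [DecidableEq ι] {x : F} (r : ι → K⟮x⟯) :
    ∃ (q : Polynomial K) (p : ι → Polynomial K), Polynomial.aeval x q ≠ 0 ∧
      ∀ i, (r i : F) = Polynomial.aeval x (p i) / Polynomial.aeval x q := by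
  have h1 : ∀ i, ∃ nd : Polynomial K × Polynomial K, Polynomial.aeval x nd.2 ≠ 0 ∧
      (r i : F) = Polynomial.aeval x nd.1 / Polynomial.aeval x nd.2 := by
    intro i
    obtain ⟨n, d, hnd⟩ := (IntermediateField.mem_adjoin_simple_iff K (r i : F)).mp (r i).2
    by_cases hd : Polynomial.aeval x d = 0
    · refine ⟨(0, 1), by simp, ?_⟩
      rw [hnd, hd]
      simp
    · exact ⟨(n, d), hd, hnd⟩
  choose nd hnd0 hnd using h1
  refine ⟨∏ k, (nd k).2, fun i => (nd i).1 * ∏ k ∈ Finset.univ.erase i, (nd k).2, ?_, ?_⟩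
  · rw [map_prod]
    exact Finset.prod_ne_zero_iff.mpr fun k _ => hnd0 k
  · intro i
    rw [hnd i, ← Finset.mul_prod_erase Finset.univ (fun k => (nd k).2) (Finset.mem_univ i),
      map_mul, map_mul]
    have h2 : Polynomial.aeval x (∏ k ∈ Finset.univ.erase i, (nd k).2) ≠ 0 := by
      rw [map_prod]
      exact Finset.prod_ne_zero_iff.mpr fun k _ => hnd0 k
    field_simp [hnd0 i]

/-- A common denominator which is reduced at `c`. -/
theorem exists_reduced_denominator [DecidableEq ι] {x : F} (c : K) (r : ι → K⟮x⟯) :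
    ∃ (q : Polynomial K) (p : ι → Polynomial K), Polynomial.aeval x q ≠ 0 ∧
      (∀ i, (r i : F) = Polynomial.aeval x (p i) / Polynomial.aeval x q) ∧
      ¬ ((Polynomial.X - Polynomial.C c) ∣ q ∧ ∀ i, (Polynomial.X - Polynomial.C c) ∣ p i) := by
  classical
  have hex : ∃ n : ℕ, ∃ (q : Polynomial K) (p : ι → Polynomial K), q.natDegree = n ∧
      Polynomial.aeval x q ≠ 0 ∧
      ∀ i, (r i : F) = Polynomial.aeval x (p i) / Polynomial.aeval x q := by
    obtain ⟨q, p, hq, hp⟩ := exists_common_denominator r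
    exact ⟨q.natDegree, q, p, rfl, hq, hp⟩
  obtain ⟨q, p, hdeg, hq, hp⟩ := Nat.find_spec hex
  refine ⟨q, p, hq, hp, ?_⟩
  rintro ⟨⟨q', hq'⟩, hdvd⟩
  choose p' hp' using hdvd
  have hq0 : q ≠ 0 := by
    rintro rfl
    simp at hq
  have hq'0 : q' ≠ 0 := by
    rintro rfl
    simp at hq'
    exact hq0 hq'
  have hxq : Polynomial.aeval x q = (x - algebraMap K F c) * Polynomial.aeval x q' := by
    rw [hq']
    simp
  have ht : x - algebraMap K F c ≠ 0 := fun h => hq (by rw [hxq, h, zero_mul])
  have hq'x : Polynomial.aeval x q' ≠ 0 := fun h => hq (by rw [hxq, h, mul_zero])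
  have hlt : q'.natDegree < Nat.find hex := by
    rw [← hdeg, hq', Polynomial.natDegree_mul (Polynomial.X_sub_C_ne_zero c) hq'0,
      Polynomial.natDegree_X_sub_C]
    omega
  refine Nat.find_min hex hlt ⟨q', p', rfl, hq'x, fun i => ?_⟩
  rw [hp i, hxq, hp' i]
  simp only [map_mul, map_sub, Polynomial.aeval_X, Polynomial.aeval_C]
  rw [mul_div_mul_left _ _ ht]

/-- **Swap vector.**  If `∑ r_i θ_i` has no pole over `c` although some coefficient `r_i ∈ K(x)`
has one, then some nontrivial constant combination of the `θ_i` is divisible by `x - c` over `c`. -/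
theorem exists_swap_vector {x : F} (θ : ι → F) (c : K)
    (hθ : ∀ i, ∀ P : Place K F, 0 < P.ord (x - algebraMap K F c) → θ i ∈ P.toValuationSubring)
    (r : ι → K⟮x⟯)
    (hf : ∀ P : Place K F, 0 < P.ord (x - algebraMap K F c) →
      (∑ i, (r i : F) * θ i) ∈ P.toValuationSubring)
    (hbad : ∃ i, ∃ P : Place K F, 0 < P.ord (x - algebraMap K F c) ∧
      (r i : F) ∉ P.toValuationSubring) :
    ∃ a : ι → K, (∃ i, a i ≠ 0) ∧ ∀ P : Place K F, 0 < P.ord (x - algebraMap K F c) →
      (x - algebraMap K F c)⁻¹ * (∑ i, algebraMap K F (a i) * θ i) ∈ P.toValuationSubring := by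
  classical
  obtain ⟨q, p, hq, hp, hred⟩ := exists_reduced_denominator c r
  by_cases hdq : (Polynomial.X - Polynomial.C c) ∣ q
  · -- some numerator does not vanish at `c`
    have hex : ∃ i, ¬ (Polynomial.X - Polynomial.C c) ∣ p i := by
      by_contra hcon
      push Not at hcon
      exact hred ⟨hdq, hcon⟩
    obtain ⟨i₁, hi₁⟩ := hex
    obtain ⟨q', hq'⟩ := hdq
    have hxq : Polynomial.aeval x q = (x - algebraMap K F c) * Polynomial.aeval x q' := by
      rw [hq']
      simp
    have ht : x - algebraMap K F c ≠ 0 := fun h => hq (by rw [hxq, h, zero_mul])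
    have hq'x : Polynomial.aeval x q' ≠ 0 := fun h => hq (by rw [hxq, h, mul_zero])
    refine ⟨fun i => (p i).eval c, ⟨i₁, fun h => hi₁ (Polynomial.dvd_iff_isRoot.mpr h)⟩, ?_⟩
    intro P hP
    have hxP := x_mem_of_over P hP
    have hpx : ∀ i, Polynomial.aeval x (p i) = algebraMap K F ((p i).eval c) +
        (x - algebraMap K F c) *
          Polynomial.aeval x (p i /ₘ (Polynomial.X - Polynomial.C c)) := by
      intro i
      conv_lhs => rw [← Polynomial.modByMonic_add_div (p i) (Polynomial.X - Polynomial.C c),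
        Polynomial.modByMonic_X_sub_C_eq_C_eval]
      simp [Polynomial.aeval_C]
    have hid : (x - algebraMap K F c)⁻¹ * (∑ i, algebraMap K F ((p i).eval c) * θ i) =
        Polynomial.aeval x q' * (∑ i, (r i : F) * θ i) -
          ∑ i, Polynomial.aeval x (p i /ₘ (Polynomial.X - Polynomial.C c)) * θ i := by
      rw [Finset.mul_sum, Finset.mul_sum, ← Finset.sum_sub_distrib]
      refine Finset.sum_congr rfl fun i _ => ?_
      rw [hp i, hxq, hpx i]
      field_simp
      ring
    rw [hid]
    refine sub_mem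
      (P.toValuationSubring.mul_mem _ _ (aeval_mem_place P hxP q') (hf P hP)) ?_
    exact sum_mem fun i _ =>
      P.toValuationSubring.mul_mem _ _ (aeval_mem_place P hxP _) (hθ i P hP)
  · -- the denominator is a unit over `c`: impossible
    exfalso
    obtain ⟨i, P, hP, hnot⟩ := hbad
    apply hnot
    rw [hp i, div_eq_mul_inv]
    have hqc : q.eval c ≠ 0 := fun h => hdq (Polynomial.dvd_iff_isRoot.mpr h)
    exact P.toValuationSubring.mul_mem _ _ (aeval_mem_place P (x_mem_of_over P hP) (p i))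
      (aeval_inv_mem_place P hP q hqc).2

end Swap

/-! ### Orthonormal tuples and the swap step -/

variable (K) in
/-- Orthonormality of a tuple over `(K(x), Gauss)`. -/
def IsONL (O : ValuationSubring F) (x : F) {ι : Type*} [Fintype ι] (θ : ι → F) : Prop :=
  ∀ r : ι → K⟮x⟯, (∑ i, (r i : F) * θ i) ∈ O ↔ ∀ i, (r i : F) ∈ O

/-- A nonzero vector over a valued field can be scaled to an integral one with a coordinate `1`. -/
theorem exists_normalized (A : ValuationSubring K) {ι : Type*} [Fintype ι] (a : ι → K)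
    (ha : ∃ i, a i ≠ 0) : ∃ j, a j ≠ 0 ∧ ∀ i, a i / a j ∈ A := by
  obtain ⟨i₀, hi₀⟩ := ha
  obtain ⟨j, -, hj⟩ := Finset.exists_max_image Finset.univ (fun i => A.valuation (a i))
    ⟨i₀, Finset.mem_univ i₀⟩
  have haj : a j ≠ 0 := by
    intro h
    have h1 := hj i₀ (Finset.mem_univ i₀)
    rw [h, map_zero] at h1
    exact hi₀ ((map_eq_zero (A.valuation)).mp (le_antisymm h1 zero_le))
  refine ⟨j, haj, fun i => ?_⟩
  rw [← ValuationSubring.valuation_le_one_iff, map_div₀]
  have hpos : 0 < A.valuation (a j) := zero_lt_iff.mpr (by simpa using haj)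
  exact (div_le_one₀ hpos).mpr (hj i (Finset.mem_univ i))

section SwapStep

variable {ι : Type*} [Fintype ι] [DecidableEq ι]

theorem mem_of_mem_nonunits (A : ValuationSubring K) {a : K} (h : a ∈ A.nonunits) : a ∈ A :=
  ValuationSubring.nonunits_subset h

theorem center_mem (A : ValuationSubring K) {b c : K} (hb : b ∈ A) (hc : c - b ∈ A.nonunits) :
    c ∈ A := by
  have := A.add_mem _ _ (mem_of_mem_nonunits A hc) hb
  simpa using this

/-- **Swap step.** -/
theorem swap_step (A : ValuationSubring K) (O : ValuationSubring F) (x : F)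
    (hmem : ∀ a : K, algebraMap K F a ∈ O ↔ a ∈ A)
    (hlin : ∀ c ∈ A, (x - algebraMap K F c) ∈ O ∧ (x - algebraMap K F c)⁻¹ ∈ O)
    (b : K) (hb : b ∈ A) (θ : ι → F) (hθS : ∀ i, θ i ∈ discRing A O x b) (hON : IsONL K O x θ)
    (c : K) (hc : c - b ∈ A.nonunits) (ht0 : x - algebraMap K F c ≠ 0)
    (a : ι → K) (ha : ∃ i, a i ≠ 0)
    (hg : ∀ P : Place K F, 0 < P.ord (x - algebraMap K F c) →
      (x - algebraMap K F c)⁻¹ * (∑ i, algebraMap K F (a i) * θ i) ∈ P.toValuationSubring) :
    ∃ θ' : ι → F, (∀ i, θ' i ∈ discRing A O x b) ∧ IsONL K O x θ' ∧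
      ((Algebra.discr K⟮x⟯ θ' : K⟮x⟯) : F) =
        ((x - algebraMap K F c)⁻¹) ^ 2 * ((Algebra.discr K⟮x⟯ θ : K⟮x⟯) : F) := by
  obtain ⟨j, haj, hnorm⟩ := exists_normalized A a ha
  have hcA : c ∈ A := center_mem A hb hc
  obtain ⟨htO, htinvO⟩ := hlin c hcA
  set t : F := x - algebraMap K F c with ht
  -- the element `t⁻¹` of `K(x)`
  let tL : K⟮x⟯ := AdjoinSimple.gen K x - algebraMap K K⟮x⟯ c
  have htL : (tL : F) = t := by
    simp [tL, ht]
  let sL : K⟮x⟯ := tL⁻¹
  have hsL : (sL : F) = t⁻¹ := by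
    simp [sL, htL]
  let a' : ι → K := fun i => a i / a j
  have ha'j : a' j = 1 := div_self haj
  let g : F := t⁻¹ * ∑ i, algebraMap K F (a' i) * θ i
  have hgeq : g = algebraMap K F (a j)⁻¹ * (t⁻¹ * ∑ i, algebraMap K F (a i) * θ i) := by
    simp only [g, a', Finset.mul_sum]
    refine Finset.sum_congr rfl fun i _ => ?_
    rw [div_eq_mul_inv, map_mul]
    ring
  have hθO : ∀ i, θ i ∈ O := fun i => (hθS i).1
  have hgO : g ∈ O := by
    refine O.mul_mem _ _ htinvO (sum_mem fun i _ => O.mul_mem _ _ ((hmem _).mpr (hnorm i)) (hθO i))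
  have hgS : g ∈ discRing A O x b := by
    refine ⟨hgO, fun P hP => ?_⟩
    rw [ord_nonneg_iff]
    obtain ⟨c', hc', hPc'⟩ := hP
    by_cases hcc : c = c'
    · subst hcc
      rw [hgeq]
      exact P.toValuationSubring.mul_mem _ _ (algebraMap_mem_place P _) (hg P hPc')
    · have h0 := ord_sub_eq_zero_of_over P hPc' hcc
      have htinv : t⁻¹ ∈ P.toValuationSubring := by
        rw [← ord_nonneg_iff, P.ord_inv, h0.2]
        simp
      refine P.toValuationSubring.mul_mem _ _ htinv (sum_mem fun i _ =>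
        P.toValuationSubring.mul_mem _ _ (algebraMap_mem_place P _) ?_)
      exact (ord_nonneg_iff P _).mp ((hθS i).2 P ⟨c', hc', hPc'⟩)
  refine ⟨Function.update θ j g, ?_, ?_, ?_⟩
  · intro i
    by_cases hij : i = j
    · subst hij
      rw [Function.update_self]
      exact hgS
    · rw [Function.update_of_ne hij]
      exact hθS i
  · -- orthonormality
    intro r
    let r' : ι → K⟮x⟯ := fun i =>
      (if i = j then 0 else r i) + r j * sL * algebraMap K K⟮x⟯ (a' i)
    have hsum : (∑ k, (r k : F) * Function.update θ j g k) = ∑ k, (r' k : F) * θ k := by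
      have h1 : (∑ k, (r k : F) * Function.update θ j g k) =
          (r j : F) * g + ∑ k ∈ Finset.univ.erase j, (r k : F) * θ k := by
        rw [← Finset.add_sum_erase Finset.univ _ (Finset.mem_univ j), Function.update_self]
        congr 1
        refine Finset.sum_congr rfl fun k hk => ?_
        rw [Function.update_of_ne (Finset.ne_of_mem_erase hk)]
      have h2 : (∑ k, (r' k : F) * θ k) =
          (∑ k, ((if k = j then 0 else r k : K⟮x⟯) : F) * θ k) +
            ∑ k, (r j : F) * t⁻¹ * algebraMap K F (a' k) * θ k := by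
        rw [← Finset.sum_add_distrib]
        refine Finset.sum_congr rfl fun k _ => ?_
        simp only [r', AddMemClass.coe_add, MulMemClass.coe_mul, hsL, add_mul]
        rfl
      have h3 : (∑ k, ((if k = j then 0 else r k : K⟮x⟯) : F) * θ k) =
          ∑ k ∈ Finset.univ.erase j, (r k : F) * θ k := by
        rw [← Finset.add_sum_erase Finset.univ _ (Finset.mem_univ j)]
        simp only [if_true, ZeroMemClass.coe_zero, zero_mul, zero_add]
        refine Finset.sum_congr rfl fun k hk => ?_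
        rw [if_neg (Finset.ne_of_mem_erase hk)]
      have h4 : (∑ k, (r j : F) * t⁻¹ * algebraMap K F (a' k) * θ k) = (r j : F) * g := by
        simp only [g, Finset.mul_sum]
        refine Finset.sum_congr rfl fun k _ => ?_
        ring
      rw [h1, h2, h3, h4, add_comm]
    rw [hsum, hON r']
    have ha'O : ∀ i, ((algebraMap K K⟮x⟯ (a' i) : K⟮x⟯) : F) ∈ O := fun i =>
      (hmem _).mpr (hnorm i)
    have hsO : (sL : F) ∈ O := by rw [hsL]; exact htinvO
    constructor
    · intro h
      have hj : (r j : F) ∈ O := by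
        have h1 := h j
        simp only [r', if_true, zero_add, ha'j, map_one, mul_one] at h1
        have h2 : (r j : F) = ((r j * sL : K⟮x⟯) : F) * t := by
          rw [MulMemClass.coe_mul, hsL, mul_assoc, inv_mul_cancel₀ ht0, mul_one]
        rw [h2]
        exact O.mul_mem _ _ h1 htO
      intro i
      by_cases hij : i = j
      · rw [hij]; exact hj
      · have h1 := h i
        simp only [r', if_neg hij] at h1
        have h2 : (r i : F) = ((r i + r j * sL * algebraMap K K⟮x⟯ (a' i) : K⟮x⟯) : F) -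
            (r j : F) * (sL : F) * ((algebraMap K K⟮x⟯ (a' i) : K⟮x⟯) : F) := by
          simp only [AddMemClass.coe_add, MulMemClass.coe_mul]
          ring
        rw [h2]
        exact sub_mem h1 (O.mul_mem _ _ (O.mul_mem _ _ hj hsO) (ha'O i))
    · intro h i
      simp only [r']
      rw [AddMemClass.coe_add]
      refine O.add_mem _ _ ?_ ?_
      · by_cases hij : i = j
        · rw [if_pos hij]; exact O.zero_mem
        · rw [if_neg hij]; exact h i
      · rw [MulMemClass.coe_mul, MulMemClass.coe_mul]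
        exact O.mul_mem _ _ (O.mul_mem _ _ (h j) hsO) (ha'O i)
  · -- the discriminant
    let M : Matrix ι ι K⟮x⟯ :=
      (1 : Matrix ι ι K⟮x⟯).updateCol j (fun i => sL * algebraMap K K⟮x⟯ (a' i))
    have hM : Function.update θ j g = Matrix.vecMul θ (M.map (algebraMap K⟮x⟯ F)) := by
      funext k
      simp only [Matrix.vecMul, dotProduct, Matrix.map_apply, M, Matrix.updateCol_apply]
      by_cases hkj : k = j
      · subst hkj
        rw [Function.update_self]
        simp only [if_true, g, Finset.mul_sum]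
        refine Finset.sum_congr rfl fun i _ => ?_
        have h5 : (algebraMap K⟮x⟯ F) (sL * (algebraMap K K⟮x⟯) (a' i)) =
            t⁻¹ * algebraMap K F (a' i) := by
          rw [IntermediateField.algebraMap_apply, MulMemClass.coe_mul, hsL]
          rfl
        rw [h5]
        ring
      · rw [Function.update_of_ne hkj]
        simp only [if_neg hkj, Matrix.one_apply]
        rw [Finset.sum_eq_single k]
        · simp
        · intro i _ hik
          simp [hik]
        · intro h
          exact absurd (Finset.mem_univ k) h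
    have hdet : M.det = sL := by
      have h1 := Matrix.cramer_apply (1 : Matrix ι ι K⟮x⟯)
        (fun i => sL * algebraMap K K⟮x⟯ (a' i)) j
      rw [Matrix.cramer_one] at h1
      simp only [Module.End.one_apply] at h1
      rw [← h1, ha'j, map_one, mul_one]
    rw [hM, Algebra.discr_of_matrix_vecMul, hdet]
    simp only [MulMemClass.coe_mul, SubmonoidClass.coe_pow, hsL]

end SwapStep

/-! ### Bases, discriminants -/

section Discr

variable {ι : Type*} [Fintype ι]

theorem linearIndependent_of_isONL {A : ValuationSubring K} {O : ValuationSubring F} {x : F}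
    (hA : A ≠ ⊤) (hmem : ∀ a : K, algebraMap K F a ∈ O ↔ a ∈ A) {θ : ι → F}
    (hON : IsONL K O x θ) : LinearIndependent K⟮x⟯ θ := by
  classical
  rw [Fintype.linearIndependent_iff]
  intro g hg i₀
  by_contra hne
  -- an element `π⁻¹ ∉ A`
  obtain ⟨y, hy⟩ : ∃ y : K, y ∉ A := by
    by_contra hcon
    push Not at hcon
    exact hA (eq_top_iff.mpr fun y _ => hcon y)
  let tt : K⟮x⟯ := algebraMap K K⟮x⟯ y * (g i₀)⁻¹
  have h1 : (∑ i, ((tt * g i : K⟮x⟯) : F) * θ i) = 0 := by
    have h2 : (∑ i, ((tt * g i : K⟮x⟯) : F) * θ i) = (tt : F) * ∑ i, g i • θ i := by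
      rw [Finset.mul_sum]
      refine Finset.sum_congr rfl fun i _ => ?_
      rw [MulMemClass.coe_mul, mul_assoc]
      rfl
    rw [h2, hg, mul_zero]
  have h3 := (hON fun i => tt * g i).mp (by rw [h1]; exact O.zero_mem) i₀
  have h4 : ((tt * g i₀ : K⟮x⟯) : F) = algebraMap K F y := by
    simp only [tt, mul_assoc, inv_mul_cancel₀ hne, mul_one]
    rfl
  rw [h4] at h3
  exact hy ((hmem y).mp h3)

theorem discr_ne_zero_of_isONL [CharZero K] [DecidableEq ι] [Nonempty ι]
    {A : ValuationSubring K} {O : ValuationSubring F}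
    {x : F} [FiniteDimensional K⟮x⟯ F] (hA : A ≠ ⊤)
    (hmem : ∀ a : K, algebraMap K F a ∈ O ↔ a ∈ A)
    (hcard : Fintype.card ι = Module.finrank K⟮x⟯ F) {θ : ι → F} (hON : IsONL K O x θ) :
    Algebra.discr K⟮x⟯ θ ≠ 0 := by
  have hli := linearIndependent_of_isONL hA hmem hON
  have h := Algebra.discr_not_zero_of_basis K⟮x⟯
    (basisOfLinearIndependentOfCardEqFinrank hli hcard)
  rwa [coe_basisOfLinearIndependentOfCardEqFinrank] at h

theorem discr_mem_place [DecidableEq ι] (P : Place K F) {x : F} (θ : ι → F)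
    (h : ∀ i j, ((Algebra.trace K⟮x⟯ F (θ i * θ j) : K⟮x⟯) : F) ∈ P.toValuationSubring) :
    ((Algebra.discr K⟮x⟯ θ : K⟮x⟯) : F) ∈ P.toValuationSubring := by
  have h1 : ((Algebra.discr K⟮x⟯ θ : K⟮x⟯) : F) =
      ((algebraMap K⟮x⟯ F).mapMatrix (Algebra.traceMatrix K⟮x⟯ θ)).det := by
    rw [Algebra.discr_def, ← RingHom.map_det]
    rfl
  rw [h1, Matrix.det_apply]
  refine sum_mem fun σ _ => ?_
  have h2 : ∀ i, (algebraMap K⟮x⟯ F).mapMatrix (Algebra.traceMatrix K⟮x⟯ θ) (σ i) i ∈
      P.toValuationSubring := fun i => h (σ i) i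
  have h3 : (∏ i, (algebraMap K⟮x⟯ F).mapMatrix (Algebra.traceMatrix K⟮x⟯ θ) (σ i) i) ∈
      P.toValuationSubring := prod_mem fun i _ => h2 i
  rw [Units.smul_def]
  exact zsmul_mem h3 _

end Discr

/-! ### The measure: number of zeros on the disc -/

section Measure

open Classical in
/-- The number of zeros (with multiplicity) of `d` on the residue disc of `b`. -/
def discMeasure (A : ValuationSubring K) (x : F) (b : K)
    (hfin : ∀ f : F, f ≠ 0 → {P : Place K F | P.ord f ≠ 0}.Finite) (d : F) : ℕ :=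
  if hd : d = 0 then 0
  else ∑ P ∈ (hfin d hd).toFinset.filter (fun P => InDisc A x b P), (P.ord d).toNat

open Classical in
theorem discMeasure_eq_sum (A : ValuationSubring K) (x : F) (b : K)
    (hfin : ∀ f : F, f ≠ 0 → {P : Place K F | P.ord f ≠ 0}.Finite) {d : F} (hd : d ≠ 0)
    (T : Finset (Place K F)) (hT : ∀ P, InDisc A x b P → P.ord d ≠ 0 → P ∈ T) :
    discMeasure A x b hfin d = ∑ P ∈ T.filter (fun P => InDisc A x b P), (P.ord d).toNat := by
  rw [discMeasure, dif_neg hd]
  refine Finset.sum_subset ?_ ?_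
  · intro P hP
    rw [Finset.mem_filter, Set.Finite.mem_toFinset] at hP
    rw [Finset.mem_filter]
    exact ⟨hT P hP.2 hP.1, hP.2⟩
  · intro P hP hnot
    rw [Finset.mem_filter] at hP
    rw [Finset.mem_filter, Set.Finite.mem_toFinset, not_and] at hnot
    have h0 : P.ord d = 0 := by
      by_contra h
      exact hnot h hP.2
    rw [h0]
    rfl

theorem discMeasure_lt (A : ValuationSubring K) (x : F) (b : K)
    (hfin : ∀ f : F, f ≠ 0 → {P : Place K F | P.ord f ≠ 0}.Finite) {d : F} (hd : d ≠ 0)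
    (c : K) (hc : c - b ∈ A.nonunits)
    (P₀ : Place K F) (hP₀ : 0 < P₀.ord (x - algebraMap K F c))
    {d' : F} (hd' : d' = ((x - algebraMap K F c)⁻¹) ^ 2 * d)
    (hreg : ∀ P : Place K F, InDisc A x b P → 0 ≤ P.ord d') :
    discMeasure A x b hfin d' < discMeasure A x b hfin d := by
  classical
  have ht0 : x - algebraMap K F c ≠ 0 := Fermat.Agent.S24.H94.ne_zero_of_ord_pos P₀ hP₀
  have hd'0 : d' ≠ 0 := by
    rw [hd']
    exact mul_ne_zero (pow_ne_zero _ (inv_ne_zero ht0)) hd
  have hord : ∀ P : Place K F, P.ord d = P.ord d' + 2 * P.ord (x - algebraMap K F c) := by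
    intro P
    rw [hd', P.ord_mul (pow_ne_zero _ (inv_ne_zero ht0)) hd, Fermat.Agent.S24.ord_pow, P.ord_inv]
    push_cast
    ring
  have htnn : ∀ P : Place K F, InDisc A x b P → 0 ≤ P.ord (x - algebraMap K F c) := by
    rintro P ⟨c', -, hP⟩
    by_cases hcc : c = c'
    · subst hcc
      exact hP.le
    · exact (ord_sub_eq_zero_of_over P hP hcc).2.ge
  let T : Finset (Place K F) := (hfin d hd).toFinset ∪ (hfin d' hd'0).toFinset
  rw [discMeasure_eq_sum A x b hfin hd'0 T
      (fun P _ h => Finset.mem_union_right _ ((Set.Finite.mem_toFinset _).mpr h)),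
    discMeasure_eq_sum A x b hfin hd T
      (fun P _ h => Finset.mem_union_left _ ((Set.Finite.mem_toFinset _).mpr h))]
  have hP₀disc : InDisc A x b P₀ := ⟨c, hc, hP₀⟩
  refine Finset.sum_lt_sum ?_ ⟨P₀, ?_, ?_⟩
  · intro P hP
    rw [Finset.mem_filter] at hP
    have h1 := htnn P hP.2
    have h2 := hord P
    omega
  · rw [Finset.mem_filter]
    refine ⟨Finset.mem_union_left _ ((Set.Finite.mem_toFinset _).mpr ?_), hP₀disc⟩
    have h2 := hord P₀
    have h3 := hreg P₀ hP₀disc
    show P₀.ord d ≠ 0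
    omega
  · have h2 := hord P₀
    have h3 := hreg P₀ hP₀disc
    omega

end Measure

/-! ### Clearing the poles of an orthonormal tuple on a disc -/

section Clear

variable {ι : Type*} [Fintype ι]

/-- Every place of the disc sees `x - c` as integral. -/
theorem sub_mem_of_inDisc {A : ValuationSubring K} {x : F} {b : K} {P : Place K F}
    (hP : InDisc A x b P) (c : K) : x - algebraMap K F c ∈ P.toValuationSubring := by
  obtain ⟨c', -, hPc'⟩ := hP
  exact sub_mem (x_mem_of_over P hPc') (algebraMap_mem_place P c)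

theorem exists_cleared_tuple {A : ValuationSubring K} {O : ValuationSubring F} {x : F}
    (hlin : ∀ c ∈ A, (x - algebraMap K F c) ∈ O ∧ (x - algebraMap K F c)⁻¹ ∈ O)
    (hfin : ∀ f : F, f ≠ 0 → {P : Place K F | P.ord f ≠ 0}.Finite)
    (hx0 : ∀ c : K, x - algebraMap K F c ≠ 0)
    (b : K) (hb : b ∈ A) (θ₀ : ι → F) (hON₀ : IsONL K O x θ₀) :
    ∃ θ : ι → F, (∀ i, θ i ∈ discRing A O x b) ∧ IsONL K O x θ := by
  classical
  -- the `θ₀ i` are Gauss-integral
  have hθ₀O : ∀ i, θ₀ i ∈ O := by
    intro i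
    let e : ι → K⟮x⟯ := Pi.single i 1
    have h1 : (∑ k, (e k : F) * θ₀ k) = θ₀ i := by
      rw [Finset.sum_eq_single i]
      · simp [e]
      · intro k _ hki
        simp [e, Pi.single_eq_of_ne hki]
      · intro h
        exact absurd (Finset.mem_univ i) h
    rw [← h1]
    refine (hON₀ e).mpr fun k => ?_
    by_cases hki : k = i
    · subst hki
      simp only [e, Pi.single_eq_same, OneMemClass.coe_one]
      exact O.one_mem
    · simp only [e, Pi.single_eq_of_ne hki, ZeroMemClass.coe_zero]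
      exact O.zero_mem
  -- the finitely many places where some `θ₀ i` has nonzero order
  let T : Finset (Place K F) := Finset.univ.biUnion fun i =>
    if h : θ₀ i = 0 then ∅ else (hfin (θ₀ i) h).toFinset
  let T' : Finset (Place K F) := T.filter fun P => InDisc A x b P
  let cen : Place K F → K := fun P => if h : InDisc A x b P then h.choose else b
  have hcen : ∀ P, InDisc A x b P →
      cen P - b ∈ A.nonunits ∧ 0 < P.ord (x - algebraMap K F (cen P)) := by
    intro P hP
    simp only [cen, dif_pos hP]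
    exact hP.choose_spec
  have hcenA : ∀ P ∈ T', cen P ∈ A := fun P hP =>
    center_mem A hb (hcen P (Finset.mem_filter.mp hP).2).1
  let N : ℕ := ∑ i, ∑ P ∈ T, (-P.ord (θ₀ i)).toNat
  let sL : K⟮x⟯ := ∏ P ∈ T', (AdjoinSimple.gen K x - algebraMap K K⟮x⟯ (cen P)) ^ N
  let s : F := ∏ P ∈ T', (x - algebraMap K F (cen P)) ^ N
  have hsL : (sL : F) = s := by
    simp only [sL, s]
    rw [SubmonoidClass.coe_finsetProd]
    refine Finset.prod_congr rfl fun P _ => ?_
    simp
  have hs0 : s ≠ 0 := Finset.prod_ne_zero_iff.mpr fun P _ => pow_ne_zero _ (hx0 _)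
  have hsO : s ∈ O := prod_mem fun P hP => O.pow_mem (hlin _ (hcenA P hP)).1 N
  have hsinvO : s⁻¹ ∈ O := by
    simp only [s]
    rw [← Finset.prod_inv_distrib]
    refine prod_mem fun P hP => ?_
    rw [← inv_pow]
    exact O.pow_mem (hlin _ (hcenA P hP)).2 N
  refine ⟨fun i => s * θ₀ i, fun i => ⟨O.mul_mem _ _ hsO (hθ₀O i), fun P hP => ?_⟩, ?_⟩
  · -- no poles on the disc
    rw [ord_nonneg_iff]
    have hsP : s ∈ P.toValuationSubring :=
      prod_mem fun Q _ => P.toValuationSubring.pow_mem (sub_mem_of_inDisc hP _) N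
    by_cases hmemP : θ₀ i ∈ P.toValuationSubring
    · exact P.toValuationSubring.mul_mem _ _ hsP hmemP
    · have hθ0 : θ₀ i ≠ 0 := fun h => hmemP (h ▸ P.toValuationSubring.zero_mem)
      have hneg : P.ord (θ₀ i) < 0 := by
        by_contra hcon
        exact hmemP ((ord_nonneg_iff P _).mp (not_lt.mp hcon))
      have hPT : P ∈ T := by
        simp only [T, Finset.mem_biUnion, Finset.mem_univ, true_and]
        refine ⟨i, ?_⟩
        rw [dif_neg hθ0, Set.Finite.mem_toFinset]
        show P.ord (θ₀ i) ≠ 0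
        omega
      have hPT' : P ∈ T' := Finset.mem_filter.mpr ⟨hPT, hP⟩
      have hN : (-P.ord (θ₀ i)) ≤ N := by
        have h1 : (-P.ord (θ₀ i)).toNat ≤ ∑ Q ∈ T, (-Q.ord (θ₀ i)).toNat :=
          Finset.single_le_sum (f := fun Q : Place K F => (-Q.ord (θ₀ i)).toNat)
            (fun _ _ => Nat.zero_le _) hPT
        have h2 : (∑ Q ∈ T, (-Q.ord (θ₀ i)).toNat) ≤ N :=
          Finset.single_le_sum (f := fun k => ∑ Q ∈ T, (-Q.ord (θ₀ k)).toNat)
            (fun _ _ => Nat.zero_le _) (Finset.mem_univ i)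
        have h3 : (-P.ord (θ₀ i)).toNat ≤ N := h1.trans h2
        omega
      have hords : (N : ℤ) ≤ P.ord s := by
        have h1 : P.ord s = ∑ Q ∈ T', P.ord ((x - algebraMap K F (cen Q)) ^ N) :=
          Fermat.Agent.S24.ord_prod P T' _ fun Q _ => pow_ne_zero _ (hx0 _)
        have h2 : P.ord ((x - algebraMap K F (cen P)) ^ N) ≤
            ∑ Q ∈ T', P.ord ((x - algebraMap K F (cen Q)) ^ N) :=
          Finset.single_le_sum
            (f := fun Q : Place K F => P.ord ((x - algebraMap K F (cen Q)) ^ N))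
            (fun Q _ => (ord_nonneg_iff P _).mpr
              (P.toValuationSubring.pow_mem (sub_mem_of_inDisc hP _) N)) hPT'
        have h3 : P.ord ((x - algebraMap K F (cen P)) ^ N) =
            N * P.ord (x - algebraMap K F (cen P)) := Fermat.Agent.S24.ord_pow P _ N
        have h4 := (hcen P hP).2
        have h5 : (N : ℤ) * 1 ≤ N * P.ord (x - algebraMap K F (cen P)) :=
          mul_le_mul_of_nonneg_left (by omega) (by positivity)
        omega
      rw [← ord_nonneg_iff, P.ord_mul hs0 hθ0]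
      omega
  · -- orthonormality
    intro r
    have h1 : (∑ i, (r i : F) * (s * θ₀ i)) = ∑ i, ((r i * sL : K⟮x⟯) : F) * θ₀ i := by
      refine Finset.sum_congr rfl fun i _ => ?_
      rw [MulMemClass.coe_mul, hsL]
      ring
    rw [h1, hON₀ fun i => r i * sL]
    refine forall_congr' fun i => ?_
    rw [MulMemClass.coe_mul, hsL]
    constructor
    · intro h
      have h2 : (r i : F) = (r i : F) * s * s⁻¹ := by
        rw [mul_assoc, mul_inv_cancel₀ hs0, mul_one]
      rw [h2]
      exact O.mul_mem _ _ h hsinvO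
    · intro h
      exact O.mul_mem _ _ h hsO

end Clear

/-! ### The minimal tuple -/

/-- **C1-D3, the minimal tuple.**  See the file header. -/
theorem exists_minimal_tuple [CharZero K] {A : ValuationSubring K}
    {O : ValuationSubring F} {x : F} (hA : A ≠ ⊤) [FiniteDimensional K⟮x⟯ F]
    (hmem : ∀ a : K, algebraMap K F a ∈ O ↔ a ∈ A)
    (hlin : ∀ c ∈ A, (x - algebraMap K F c) ∈ O ∧ (x - algebraMap K F c)⁻¹ ∈ O)
    (hbasis : ∃ θ : Fin (Module.finrank K⟮x⟯ F) → F,
      ∀ r : Fin (Module.finrank K⟮x⟯ F) → K⟮x⟯,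
        (∑ i, (r i : F) * θ i) ∈ O ↔ ∀ i, (r i : F) ∈ O)
    (hfin : ∀ f : F, f ≠ 0 → {P : Place K F | P.ord f ≠ 0}.Finite)
    (hne : ∀ c : K, ∃ P : Place K F, 0 < P.ord (x - algebraMap K F c))
    (htr : ∀ (c : K) (f : F),
      (∀ P : Place K F, 0 < P.ord (x - algebraMap K F c) → 0 ≤ P.ord f) →
      ∀ P : Place K F, 0 < P.ord (x - algebraMap K F c) →
        0 ≤ P.ord ((Algebra.trace K⟮x⟯ F f : K⟮x⟯) : F))
    (b : K) (hb : b ∈ A) :
    ∃ θ : Fin (Module.finrank K⟮x⟯ F) → F,
      (∀ i, θ i ∈ discRing A O x b) ∧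
      (∀ r : Fin (Module.finrank K⟮x⟯ F) → K⟮x⟯,
        (∑ i, (r i : F) * θ i) ∈ O ↔ ∀ i, (r i : F) ∈ O) ∧
      (∀ c : K, c - b ∈ A.nonunits → ∀ r : Fin (Module.finrank K⟮x⟯ F) → K⟮x⟯,
        (∀ P : Place K F, 0 < P.ord (x - algebraMap K F c) →
          0 ≤ P.ord (∑ i, (r i : F) * θ i)) →
        ∀ i, ∀ P : Place K F, 0 < P.ord (x - algebraMap K F c) → 0 ≤ P.ord (r i : F)) ∧
      (∀ r : Fin (Module.finrank K⟮x⟯ F) → K⟮x⟯,
        (∑ i, (r i : F) * θ i) ∈ discRing A O x b → ∀ i, (r i : F) ∈ discRing A O x b) := by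
  classical
  have hx0 : ∀ c : K, x - algebraMap K F c ≠ 0 := fun c => by
    obtain ⟨P, hP⟩ := hne c
    exact Fermat.Agent.S24.H94.ne_zero_of_ord_pos P hP
  have : Nonempty (Fin (Module.finrank K⟮x⟯ F)) := ⟨⟨0, Module.finrank_pos⟩⟩
  have hcard : Fintype.card (Fin (Module.finrank K⟮x⟯ F)) = Module.finrank K⟮x⟯ F :=
    Fintype.card_fin _
  -- the discriminant of a tuple inside `S_b` has no poles on the disc
  have hreg : ∀ θ : Fin (Module.finrank K⟮x⟯ F) → F, (∀ i, θ i ∈ discRing A O x b) →
      ∀ P : Place K F, InDisc A x b P → 0 ≤ P.ord ((Algebra.discr K⟮x⟯ θ : K⟮x⟯) : F) := by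
    intro θ hθ P hP
    rw [ord_nonneg_iff]
    refine discr_mem_place P θ fun i j => ?_
    obtain ⟨c', hc', hPc'⟩ := hP
    rw [← ord_nonneg_iff]
    refine htr c' (θ i * θ j) (fun P' hP' => ?_) P hPc'
    rw [ord_nonneg_iff]
    have hd : InDisc A x b P' := ⟨c', hc', hP'⟩
    exact P'.toValuationSubring.mul_mem _ _ ((ord_nonneg_iff P' _).mp ((hθ i).2 P' hd))
      ((ord_nonneg_iff P' _).mp ((hθ j).2 P' hd))
  -- the class of orthonormal tuples inside `S_b` is nonempty
  obtain ⟨θ₀, hθ₀⟩ := hbasis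
  obtain ⟨θ₁, hθ₁S, hθ₁ON⟩ := exists_cleared_tuple hlin hfin hx0 b hb θ₀ hθ₀
  have hex : ∃ n : ℕ, ∃ θ : Fin (Module.finrank K⟮x⟯ F) → F,
      (∀ i, θ i ∈ discRing A O x b) ∧ IsONL K O x θ ∧
      discMeasure A x b hfin ((Algebra.discr K⟮x⟯ θ : K⟮x⟯) : F) = n :=
    ⟨_, θ₁, hθ₁S, hθ₁ON, rfl⟩
  obtain ⟨θ, hθS, hON, hmeas⟩ := Nat.find_spec hex
  have hloc : ∀ c : K, c - b ∈ A.nonunits → ∀ r : Fin (Module.finrank K⟮x⟯ F) → K⟮x⟯,
      (∀ P : Place K F, 0 < P.ord (x - algebraMap K F c) →
        0 ≤ P.ord (∑ i, (r i : F) * θ i)) →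
      ∀ i, ∀ P : Place K F, 0 < P.ord (x - algebraMap K F c) → 0 ≤ P.ord (r i : F) := by
    intro c hc r hf
    by_contra hcon
    push Not at hcon
    obtain ⟨i, P, hP, hlt⟩ := hcon
    have hθc : ∀ i, ∀ P : Place K F, 0 < P.ord (x - algebraMap K F c) →
        θ i ∈ P.toValuationSubring :=
      fun i P hP => (ord_nonneg_iff P _).mp ((hθS i).2 P ⟨c, hc, hP⟩)
    obtain ⟨a, ha, hg⟩ := exists_swap_vector θ c hθc r
      (fun P hP => (ord_nonneg_iff P _).mp (hf P hP))
      ⟨i, P, hP, fun h => absurd ((ord_nonneg_iff P _).mpr h) (not_le.mpr hlt)⟩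
    obtain ⟨θ', hθ'S, hON', hdisc⟩ :=
      swap_step A O x hmem hlin b hb θ hθS hON c hc (hx0 c) a ha hg
    have hd0 : ((Algebra.discr K⟮x⟯ θ : K⟮x⟯) : F) ≠ 0 := by
      have h1 := discr_ne_zero_of_isONL hA hmem hcard hON
      exact fun h => h1 (Subtype.ext h)
    obtain ⟨P₀, hP₀⟩ := hne c
    have hlt' := discMeasure_lt A x b hfin hd0 c hc P₀ hP₀ hdisc (hreg θ' hθ'S)
    exact Nat.find_min hex (by rw [← hmeas]; exact hlt') ⟨θ', hθ'S, hON', rfl⟩
  refine ⟨θ, hθS, hON, hloc, ?_⟩
  intro r hr i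
  refine ⟨(hON r).mp hr.1 i, fun P hP => ?_⟩
  obtain ⟨c', hc', hPc'⟩ := hP
  exact hloc c' hc' r (fun P' hP' => hr.2 P' ⟨c', hc', hP'⟩) i P hPc'

end Fermat.Agent.S18.H20
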