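/-
S18 / wave 4 (helper20): leaf C1-D3 in UNCONDITIONAL form.

`exists_minimal_tuple_of_setup`: in a `Setup K A F O x` over an algebraically closed field of
characteristic zero, with `A ≠ ⊤`, for every residue disc `b ∈ A` there is a tuple
`θ : Fin [F : K(x)] → F` inside `S_b = discRing A O x b` which
  * is orthonormal for `O` over `(K(x), Gauss)`,
  * is a local integral basis at every point `c` of the disc (in `Place.ord` form),
  * has `K(x)`-coordinates in `S_b` for every element of `S_b`.

This is `exists_minimal_tuple` of `MinTuple.lean` with its five hypotheses discharged from landed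
leaves: transcendence of `x` (`H59.aeval_ne_zero_of_setup`), non-empty fibres (`H42.exists_over`),
finiteness of zeros and poles (`H42.finite_ord_ne_zero`), regular traces (`H46.ord_trace_nonneg`).
-/
import Mathlib
import Fermat.Agent.S18.H20.MinTuple
import Fermat.Agent.S18.H74.Setup
import Fermat.Agent.S18.H59.RatOneUnit
import Fermat.Agent.S18.H42.Fibres
import Fermat.Agent.S18.H42.FiniteOrd
import Fermat.Agent.S18.H46.FibLocal
import Fermat.Agent.S18.H49.C1Defs

set_option autoImplicit false

open AlgebraicCurve IntermediateField Polynomial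

noncomputable section

namespace Fermat.Agent.S18.H20

open Fermat.Agent.S18.H74

variable {K : Type*} [Field K] {F : Type*} [Field F] [Algebra K F]

/-- The base function of a setup over a non-trivial valuation ring is transcendental. -/
theorem transcendental_base {A : ValuationSubring K} {O : ValuationSubring F} {x : F}
    (hA : A ≠ ⊤) (hS : Setup K A F O x) : Transcendental K x :=
  transcendental_iff.mpr fun p hp => by
    by_contra hp0
    exact Fermat.Agent.S18.H59.aeval_ne_zero_of_setup hA hS hp0 hp

/-- In a setup, `x - c` is a unit of `O` for every `c ∈ A`. -/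
theorem sub_unit_of_setup {A : ValuationSubring K} {O : ValuationSubring F} {x : F}
    (hS : Setup K A F O x) (c : K) (hc : c ∈ A) :
    (x - algebraMap K F c) ∈ O ∧ (x - algebraMap K F c)⁻¹ ∈ O := by
  have h := hS.gauss (X - C c)
    (fun i => by
      rw [coeff_sub, coeff_X, coeff_C]
      refine A.sub_mem ?_ ?_ <;> split_ifs <;> first | exact A.one_mem | exact A.zero_mem | exact hc)
    ⟨1, by simp [coeff_X], by simp [coeff_X, A.one_mem]⟩
  simpa using h

/-- **C1-D3, unconditional form.**  The minimal tuple of the disc of `b` in a setup. -/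
theorem exists_minimal_tuple_of_setup [IsAlgClosed K] [CharZero K] {A : ValuationSubring K}
    {O : ValuationSubring F} {x : F} (hA : A ≠ ⊤) (hS : Setup K A F O x) (b : K) (hb : b ∈ A) :
    ∃ θ : Fin (Module.finrank K⟮x⟯ F) → F,
      (∀ i, θ i ∈ discRing A O x b) ∧
      (∀ r : Fin (Module.finrank K⟮x⟯ F) → K⟮x⟯,
        (∑ i, (r i : F) * θ i) ∈ O ↔ ∀ i, (r i : F) ∈ O) ∧
      (∀ c : K, c - b ∈ A.nonunits → ∀ r : Fin (Module.finrank K⟮x⟯ F) → K⟮x⟯,
        (∀ P : Place K F, 0 < P.ord (x - algebraMap K F c) →
          0 ≤ P.ord (∑ i, (r i : F) * θ i)) →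
        ∀ i, ∀ P : Place K F, 0 < P.ord (x - algebraMap K F c) → 0 ≤ P.ord (r i : F)) ∧
      (∀ r : Fin (Module.finrank K⟮x⟯ F) → K⟮x⟯,
        (∑ i, (r i : F) * θ i) ∈ discRing A O x b → ∀ i, (r i : F) ∈ discRing A O x b) := by
  have hx : Transcendental K x := transcendental_base hA hS
  have : FiniteDimensional K⟮x⟯ F := hS.finite
  obtain ⟨θ₀, hθ₀, -⟩ := hS.basis
  exact exists_minimal_tuple hA hS.mem_iff (sub_unit_of_setup hS) ⟨θ₀, hθ₀⟩
    (fun f hf => Fermat.Agent.S18.H42.finite_ord_ne_zero x hx hf)
    (fun c => Fermat.Agent.S18.H42.exists_over x hx c)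
    (fun c f hf => Fermat.Agent.S18.H46.ord_trace_nonneg x hx c hf) b hb

/-- **C1-D3** in the packaged shape of the C1 sub-skeleton (`H49.C1Skel.exists_minTuple`,
statement verbatim). -/
theorem exists_isMinTuple [IsAlgClosed K] [CharZero K] {A : ValuationSubring K}
    {O : ValuationSubring F} {x : F} (hA : A ≠ ⊤) (hS : Setup K A F O x) (b : K) (hb : b ∈ A) :
    ∃ θ : Fin (Module.finrank K⟮x⟯ F) → F, Fermat.Agent.S18.H49.IsMinTuple A O x b θ := by
  obtain ⟨θ, h1, h2, h3, h4⟩ := exists_minimal_tuple_of_setup hA hS b hb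
  exact ⟨θ, ⟨h1, h2, h3, h4⟩⟩

end Fermat.Agent.S18.H20
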